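/-
S55 / 18-DUAL-ABS (helper4): the final linear-algebra count of the Poitou–Tate argument.

`finrank_range_eq_finrank_ker` : from
* `V`  (finite-dimensional; think `Hom_{G_S}(M, C_S)`),
* `W`  (think `H²(G_S, M)`), `P0` (think `⊕_v H⁰(K_v, M')`), `P2` (think `⊕_v H²(K_v, M)`),
* `lam : P0 → V`, `loc : W → P2`, `del : V → H1` with `ker del = range lam`
  (so `range del ≃ V / lam P0`; think `range del = Ш¹(M')`),
* a global pairing `B : V × W → k` and a local pairing `Bloc : P0 × P2 → k` with
  `B (lam t) x = Bloc t (loc x)`,
* (a) `B` is right-nondegenerate, (b) the left kernel of `B` lies in `range lam`,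
* (e) `Bloc` is right-nondegenerate on `range loc`,
one gets `finrank (range del) = finrank (ker loc)` (and `W` is finite-dimensional).
-/
import Mathlib

set_option autoImplicit false

namespace Fermat.Agent.S55.DualAbs4.Count

open Module

variable {k : Type*} [Field k]

section pairing

variable {V W : Type*} [AddCommGroup V] [Module k V] [AddCommGroup W] [Module k W]

/-- If `B : V × W → k` is right-nondegenerate and `V` is finite-dimensional,
so is `W`. -/
theorem finiteDimensional_right [FiniteDimensional k V] (B : V →ₗ[k] W →ₗ[k] k)
    (hA : ∀ x, (∀ f, B f x = 0) → x = 0) : FiniteDimensional k W := by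
  have hinj : Function.Injective B.flip := by
    rw [← LinearMap.ker_eq_bot, LinearMap.ker_eq_bot']
    intro x hx
    apply hA
    intro f
    have := LinearMap.congr_fun hx f
    simpa using this
  exact FiniteDimensional.of_injective B.flip hinj

/-- A right-nondegenerate pairing with `V` finite-dimensional: the map `V → Dual W`
is surjective. -/
theorem range_eq_top_of_right_nondeg [FiniteDimensional k V] (B : V →ₗ[k] W →ₗ[k] k)
    (hA : ∀ x, (∀ f, B f x = 0) → x = 0) : LinearMap.range B = ⊤ := by
  have : FiniteDimensional k W := finiteDimensional_right B hA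
  have h1 : (LinearMap.range B).dualCoannihilator = ⊥ := by
    rw [eq_bot_iff]
    intro x hx
    rw [Submodule.mem_dualCoannihilator] at hx
    rw [Submodule.mem_bot]
    apply hA
    intro f
    exact hx (B f) (LinearMap.mem_range_self B f)
  have h2 := Subspace.dualCoannihilator_dualAnnihilator_eq (W := LinearMap.range B)
  rw [h1] at h2
  rw [← h2]
  simp

end pairing

variable {V W P0 P2 H1 : Type*}
  [AddCommGroup V] [Module k V] [AddCommGroup W] [Module k W]
  [AddCommGroup P0] [Module k P0] [AddCommGroup P2] [Module k P2]
  [AddCommGroup H1] [Module k H1]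

/-- **Poitou–Tate count.** -/
theorem finrank_range_eq_finrank_ker [FiniteDimensional k V]
    (lam : P0 →ₗ[k] V) (loc : W →ₗ[k] P2) (del : V →ₗ[k] H1)
    (hdel : LinearMap.ker del = LinearMap.range lam)
    (B : V →ₗ[k] W →ₗ[k] k) (Bloc : P0 →ₗ[k] P2 →ₗ[k] k)
    (compat : ∀ t x, B (lam t) x = Bloc t (loc x))
    (hA : ∀ x, (∀ f, B f x = 0) → x = 0)
    (hB : ∀ f, (∀ x, B f x = 0) → f ∈ LinearMap.range lam)
    (hE : ∀ x, (∀ t, Bloc t (loc x) = 0) → loc x = 0) :
    FiniteDimensional k W ∧
      finrank k (LinearMap.range del) = finrank k (LinearMap.ker loc) := by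
  have hW : FiniteDimensional k W := finiteDimensional_right B hA
  refine ⟨hW, ?_⟩
  set R : Submodule k V := LinearMap.range lam with hR
  -- left kernel
  have hL : LinearMap.ker B ≤ R := by
    intro f hf
    apply hB
    intro x
    have := LinearMap.congr_fun (LinearMap.mem_ker.mp hf) x
    simpa using this
  -- ker loc is the coannihilator of B(R)
  have hker : LinearMap.ker loc = (R.map B).dualCoannihilator := by
    ext x
    rw [LinearMap.mem_ker, Submodule.mem_dualCoannihilator]
    constructor
    · intro hx φ hφ
      obtain ⟨f, hf, rfl⟩ := Submodule.mem_map.mp hφ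
      obtain ⟨t, rfl⟩ := LinearMap.mem_range.mp hf
      rw [compat, hx]; simp
    · intro hx
      apply hE
      intro t
      rw [← compat]
      exact hx (B (lam t)) (Submodule.mem_map.mpr ⟨lam t, LinearMap.mem_range_self lam t, rfl⟩)
  -- dimension count
  have h1 : finrank k (R.map B) + finrank k (LinearMap.ker loc) = finrank k W := by
    rw [hker]
    exact Subspace.finrank_add_finrank_dualCoannihilator_eq (R.map B)
  have h2 : finrank k (LinearMap.range B) + finrank k (LinearMap.ker B) = finrank k V :=
    LinearMap.finrank_range_add_finrank_ker B
  have h3 : finrank k (LinearMap.range B) = finrank k W := by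
    rw [range_eq_top_of_right_nondeg B hA, finrank_top, Subspace.dual_finrank_eq]
  -- rank of B restricted to R
  have h4 : finrank k (R.map B) + finrank k (LinearMap.ker B) = finrank k R := by
    have := LinearMap.finrank_range_add_finrank_ker (B.domRestrict R)
    have hr : LinearMap.range (B.domRestrict R) = R.map B := by
      ext φ
      simp only [LinearMap.mem_range, Submodule.mem_map, LinearMap.domRestrict_apply,
        Subtype.exists, exists_prop]
    have hk : finrank k (LinearMap.ker (B.domRestrict R)) = finrank k (LinearMap.ker B) := by
      have : LinearMap.ker (B.domRestrict R) = (LinearMap.ker B).comap R.subtype := by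
        ext ⟨f, hf⟩
        simp [LinearMap.domRestrict_apply]
      rw [this]
      have hmap : ((LinearMap.ker B).comap R.subtype).map R.subtype = LinearMap.ker B := by
        rw [Submodule.map_comap_subtype]
        exact inf_eq_right.mpr hL
      have := (Submodule.equivMapOfInjective R.subtype R.injective_subtype
        ((LinearMap.ker B).comap R.subtype)).finrank_eq
      rw [this, hmap]
    rw [hr, hk] at this
    exact this
  have h5 : finrank k (LinearMap.range del) + finrank k R = finrank k V := by
    have := LinearMap.finrank_range_add_finrank_ker del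
    rw [hdel] at this
    exact this
  omega

/-- Variant with two one-sided statements: if `X` embeds in the dual of `Y` and `Y` embeds
in the dual of `X`, and one of them is finite-dimensional, both are and the dimensions agree. -/
theorem finrank_eq_of_two_injections {X Y : Type*} [AddCommGroup X] [Module k X]
    [AddCommGroup Y] [Module k Y] [FiniteDimensional k X]
    (φ : X →ₗ[k] Dual k Y) (ψ : Y →ₗ[k] Dual k X)
    (hφ : Function.Injective φ) (hψ : Function.Injective ψ) :
    FiniteDimensional k Y ∧ finrank k X = finrank k Y := by
  have : FiniteDimensional k Y := FiniteDimensional.of_injective ψ hψ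
  refine ⟨inferInstance, le_antisymm ?_ ?_⟩
  · have := LinearMap.finrank_le_finrank_of_injective hφ
    rwa [Subspace.dual_finrank_eq] at this
  · have := LinearMap.finrank_le_finrank_of_injective hψ
    rwa [Subspace.dual_finrank_eq] at this

end Fermat.Agent.S55.DualAbs4.Count
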